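import Fermat.Agent.AbVar.Cube.Values

/-!
# Helpers for the parallelogram relation
-/

set_option autoImplicit false
set_option linter.style.haveILetI false
set_option linter.unusedSectionVars false

noncomputable section

open scoped TensorProduct

namespace Fermat.Agent.AbVar

universe u

/-! ## Values of units of a subalgebra -/

section HasVal

variable {k E L : Type u} [Field k] [Field E] [Algebra k E] [Field L] [Algebra k L]
  {S : Subalgebra k E} (ev : S →ₐ[k] L)

/-- A unit of a subalgebra with its value. -/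
def HasVal (x : E) (y : L) : Prop :=
  x ≠ 0 ∧ ∃ h : x ∈ S, x⁻¹ ∈ S ∧ ev ⟨x, h⟩ = y

variable {ev} {x x' : E} {y y' : L}

theorem HasVal.one : HasVal ev 1 1 :=
  ⟨one_ne_zero, one_mem _, by rw [inv_one]; exact one_mem _, map_one ev⟩

theorem HasVal.mul (h : HasVal ev x y) (h' : HasVal ev x' y') : HasVal ev (x * x') (y * y') := by
  obtain ⟨h0, hx, hi, rfl⟩ := h
  obtain ⟨h0', hx', hi', rfl⟩ := h'
  exact ⟨mul_ne_zero h0 h0', mul_mem hx hx', by rw [mul_inv]; exact mul_mem hi hi',
    map_mul ev ⟨x, hx⟩ ⟨x', hx'⟩⟩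

theorem HasVal.ne_zero (h : HasVal ev x y) : y ≠ 0 := by
  obtain ⟨h0, hx, hi, rfl⟩ := h
  intro hy
  have := congrArg ev (show (⟨x, hx⟩ : S) * ⟨x⁻¹, hi⟩ = 1 from Subtype.ext (mul_inv_cancel₀ h0))
  rw [map_mul, hy, zero_mul, map_one] at this
  exact zero_ne_one this

theorem HasVal.inv (h : HasVal ev x y) : HasVal ev x⁻¹ y⁻¹ := by
  have hy := h.ne_zero
  obtain ⟨h0, hx, hi, rfl⟩ := h
  refine ⟨inv_ne_zero h0, hi, by rw [inv_inv]; exact hx, eq_inv_of_mul_eq_one_left ?_⟩
  rw [← map_mul, ← map_one ev]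
  exact congrArg ev (Subtype.ext (inv_mul_cancel₀ h0))

theorem HasVal.zpow (h : HasVal ev x y) (z : ℤ) : HasVal ev (x ^ z) (y ^ z) := by
  have hpow : ∀ n : ℕ, HasVal ev (x ^ n) (y ^ n) := fun n => by
    induction n with
    | zero => rw [pow_zero, pow_zero]; exact HasVal.one
    | succ n ih => rw [pow_succ, pow_succ]; exact ih.mul h
  rcases Int.eq_nat_or_neg z with ⟨n, rfl | rfl⟩
  · rw [zpow_natCast, zpow_natCast]; exact hpow n
  · rw [zpow_neg, zpow_neg, zpow_natCast, zpow_natCast]; exact (hpow n).inv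

theorem HasVal.prod {ι : Type*} (s : Finset ι) (a : ι → E) (b : ι → L)
    (h : ∀ i ∈ s, HasVal ev (a i) (b i)) : HasVal ev (∏ i ∈ s, a i) (∏ i ∈ s, b i) := by
  classical
  induction s using Finset.induction_on with
  | empty => rw [Finset.prod_empty, Finset.prod_empty]; exact HasVal.one
  | @insert i s hi ih =>
    rw [Finset.prod_insert hi, Finset.prod_insert hi]
    exact (h i (Finset.mem_insert_self i s)).mul (ih fun j hj => h j (Finset.mem_insert_of_mem hj))

theorem HasVal.unique (h : HasVal ev x y) (h' : HasVal ev x y') : y = y' := by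
  obtain ⟨-, hx, -, rfl⟩ := h
  obtain ⟨-, hx', -, rfl⟩ := h'
  rfl

end HasVal

/-! ## Classes of products -/

section Vcls

variable {F : Type u} [Field F] (V : ValuationSubring F)

theorem vcls_zpow {x : F} (hx : x ≠ 0) (z : ℤ) : vcls V (x ^ z) = z • vcls V x := by
  rcases Int.eq_nat_or_neg z with ⟨n, rfl | rfl⟩
  · rw [zpow_natCast, natCast_zsmul, vcls_pow V hx]
  · rw [zpow_neg, zpow_natCast, vcls_inv, vcls_pow V hx, neg_zsmul, natCast_zsmul]

theorem vcls_finsetProd {ι : Type*} (s : Finset ι) (a : ι → F) (ha : ∀ i ∈ s, a i ≠ 0) :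
    vcls V (∏ i ∈ s, a i) = ∑ i ∈ s, vcls V (a i) := by
  classical
  induction s using Finset.induction_on with
  | empty => rw [Finset.prod_empty, Finset.sum_empty, vcls_one]
  | @insert i s hi ih =>
    rw [Finset.prod_insert hi, Finset.sum_insert hi, vcls_mul V (ha i (Finset.mem_insert_self i s))
      (Finset.prod_ne_zero_iff.mpr fun j hj => ha j (Finset.mem_insert_of_mem hj)),
      ih fun j hj => ha j (Finset.mem_insert_of_mem hj)]

end Vcls

/-! ## The local ring at a point of the constants -/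

section Top

variable {k : Type u} [Field k] {Ω : Type u} [Field Ω] [Algebra k Ω]

theorem Val.top_hloc (r : (Val.top k Ω).alg) (h : (r : Ω)⁻¹ ∉ (Val.top k Ω).1) :
    (Val.top k Ω).alg.val r = 0 :=
  absurd (ValuationSubring.mem_top _) h

theorem Val.res_surjective (R : Val k Ω) : Function.Surjective R.res := fun y => by
  obtain ⟨⟨x, hx⟩, rfl⟩ := IsLocalRing.residue_surjective (R := R.1) y
  exact ⟨⟨x, hx⟩, rfl⟩

theorem evLoc_surjective_of [IsAlgClosed k] {F κ : Type u} [Field F] [Algebra k F] [Field κ]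
    [Algebra k κ] (R : Val k Ω) (π : R.alg →ₐ[k] κ) (B : Subalgebra k F) (q : B →ₐ[k] κ)
    (hπ : Function.Surjective π) : Function.Surjective (evLoc R π B q) := fun y => by
  obtain ⟨r, rfl⟩ := hπ y
  exact ⟨_, evLoc_incΩ R π B q r⟩

end Top

namespace Model

variable {K : Type u} [Field K] (M : Model K) {Ω : Type u} [Field Ω] [Algebra K Ω]

theorem map_toAlgHom_self {κ : Type u} [Field κ] [Algebra K κ] (P : M.Pt κ) :
    M.map ((IsScalarTower.toAlgHom K κ κ).restrictScalars K) P = P := by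
  rw [show (IsScalarTower.toAlgHom K κ κ).restrictScalars K = AlgHom.id K κ from
    AlgHom.ext fun _ => rfl]
  exact M.map_id P

theorem redK_top (P : M.Pt Ω) : M.redK (Val.top K Ω) (Val.top K Ω).alg.val P = P := by
  obtain ⟨i, φ, hφ, rfl⟩ := M.exists_chartK (Val.top K Ω) P
  exact M.redK_pt (Val.top K Ω) _ i φ φ hφ fun _ => rfl

end Model

end Fermat.Agent.AbVar
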